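import Fermat.Prelude.Def_FLTPrelim_Modularity
import Fermat.Prelude.Def_ModularCurve_HeckeModule
import Fermat.Prelude.Def_ModularCurve_X0ModL
import Fermat.Agent.Eis.LevelOne
import Fermat.Agent.FF.SeriesInst
import Fermat.Agent.Grp.Defs

/-!
# Deligne–Serre: the level `Γ₀(M²) ∩ ± Γ₁(M)` and the field of its curve

The weight-four Eisenstein series attached to `v = (u, w) ∈ (ℤ/M)²` has, in `t = e^(2πiτ/M)`, the
series `gSer`; times `E₄² / Δ` it is a function `yFam` of level `M`.  Substituting `τ ↦ Mτ` turns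
`t` into `q`, so the functions `ySer M a = yFam ℚ 1 (a, 0)`, read in `q`, live on
`Γ₀(M²) ∩ ± Γ₁(M)`.
-/

noncomputable section

namespace Fermat.Agent.WeightOneGalois

open CongruenceSubgroup ModularCurve AlgebraicCurve
open scoped MatrixGroups

theorem dvd_apply_one_zero {M : ℕ} {σ : SL(2, ℤ)} (h : σ ∈ Gamma0 (M ^ 2)) :
    ((M : ℤ) ^ 2) ∣ σ 1 0 := by
  rw [Gamma0_mem, ZMod.intCast_zmod_eq_zero_iff_dvd] at h
  exact_mod_cast h

/-- The lower left entry of an element of `Γ₀(M²)` vanishes modulo `M`. -/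
theorem apply_one_zero_eq_zero {M : ℕ} {σ : SL(2, ℤ)} (h : σ ∈ Gamma0 (M ^ 2)) :
    (σ 1 0 : ZMod M) = 0 := by
  rw [ZMod.intCast_zmod_eq_zero_iff_dvd]
  exact (dvd_pow_self _ two_ne_zero).trans (dvd_apply_one_zero h)

/-- The diagonal entries of an element of `Γ₀(M²)` are inverse modulo `M`. -/
theorem upperLeft_mul_lowerRight {M : ℕ} {σ : SL(2, ℤ)} (h : σ ∈ Gamma0 (M ^ 2)) :
    (σ 0 0 : ZMod M) * (σ 1 1 : ZMod M) = 1 := by
  have hdet := σ.2
  rw [Matrix.det_fin_two] at hdet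
  have h2 := congrArg (Int.cast : ℤ → ZMod M) hdet
  push_cast at h2
  rwa [apply_one_zero_eq_zero h, mul_zero, sub_zero] at h2

/-- The lower right entry modulo `M` is multiplicative on `Γ₀(M²)`. -/
theorem lowerRight_mul {M : ℕ} {σ : SL(2, ℤ)} (hσ : σ ∈ Gamma0 (M ^ 2)) (τ : SL(2, ℤ)) :
    ((σ * τ) 1 1 : ZMod M) = (σ 1 1 : ZMod M) * (τ 1 1 : ZMod M) := by
  rw [show ((σ * τ : SL(2, ℤ)) 1 1 : ℤ) = σ 1 0 * τ 0 1 + σ 1 1 * τ 1 1 by
    simp [Matrix.mul_apply, Fin.sum_univ_two]]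
  push_cast
  rw [apply_one_zero_eq_zero hσ, zero_mul, zero_add]

/-- `Γ₀(M²) ∩ ± Γ₁(M)`. -/
def GT (M : ℕ) : Subgroup SL(2, ℤ) where
  carrier := {γ | γ ∈ Gamma0 (M ^ 2) ∧ ((γ 1 1 : ZMod M) = 1 ∨ (γ 1 1 : ZMod M) = -1)}
  one_mem' := ⟨one_mem _, Or.inl (by simp)⟩
  mul_mem' := by
    rintro γ δ ⟨hγ, hγd⟩ ⟨hδ, hδd⟩
    refine ⟨mul_mem hγ hδ, ?_⟩
    rcases hγd with h | h <;> rcases hδd with h' | h' <;> rw [lowerRight_mul hγ, h, h'] <;> simp
  inv_mem' := by
    rintro γ ⟨hγ, hγd⟩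
    refine ⟨inv_mem hγ, ?_⟩
    have hdet := upperLeft_mul_lowerRight hγ
    have e : ((γ⁻¹ : SL(2, ℤ)) 1 1 : ZMod M) = (γ 0 0 : ZMod M) := by
      simp [Matrix.SpecialLinearGroup.coe_inv, Matrix.adjugate_fin_two]
    rcases hγd with h | h
    · left
      rw [e]
      simpa [h] using hdet
    · right
      rw [e]
      rw [h] at hdet
      linear_combination -hdet

theorem mem_GT {M : ℕ} {γ : SL(2, ℤ)} :
    γ ∈ GT M ↔ γ ∈ Gamma0 (M ^ 2) ∧ ((γ 1 1 : ZMod M) = 1 ∨ (γ 1 1 : ZMod M) = -1) :=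
  Iff.rfl

theorem T_mem_GT (M : ℕ) : ModularGroup.T ∈ GT M := by
  refine ⟨?_, Or.inl ?_⟩
  · rw [Gamma0_mem]; simp [ModularGroup.coe_T]
  · simp [ModularGroup.coe_T]

theorem Gamma1_sq_le_GT (M : ℕ) : Gamma1 (M ^ 2) ≤ GT M := by
  intro γ hγ
  rw [Gamma1_mem] at hγ
  refine ⟨Gamma0_mem.mpr hγ.2.2, Or.inl ?_⟩
  have h := congrArg (ZMod.castHom (dvd_pow_self M two_ne_zero) (ZMod M)) hγ.2.1
  simpa using h

instance finiteIndex_GT (M : ℕ) [NeZero M] : (GT M).FiniteIndex :=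
  Subgroup.finiteIndex_of_le (Gamma1_sq_le_GT M)

section Series

variable {M : ℕ} (R : Type*) [CommRing R] (ζ : R)

/-- In `t = e^(2πiτ/M)`, the series of the weight-four Eisenstein series of `v`. -/
def gSer (v : ZMod M × ZMod M) : PowerSeries R :=
  PowerSeries.mk fun n =>
    if n = 0 then
      if v.1 = 0 then
        ζ ^ v.2.val * (1 + 4 * ζ ^ v.2.val + (ζ ^ v.2.val) ^ 2) *
          Ring.inverse ((1 - ζ ^ v.2.val) ^ 4)
      else 0
    else
      (∑ d ∈ n.divisors.filter (fun d : ℕ => (d : ZMod M) = v.1),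
        ((n / d) ^ 3 : ℕ) * ζ ^ (v.2.val * (n / d))) +
      ∑ d ∈ n.divisors.filter (fun d : ℕ => (d : ZMod M) = -v.1),
        ((n / d) ^ 3 : ℕ) * ζ ^ ((-v.2).val * (n / d))

/-- `q E₄² / Δ`, an integral series. -/
def weightFix : PowerSeries ℤ :=
  Eis.e4 ^ 2 *
    PowerSeries.invOfUnit (PowerSeries.mk fun n => PowerSeries.coeff (n + 1) Eis.deltaZ) 1

/-- The function of level `M` attached to `v`, as a series in `t`. -/
def yFam [NeZero M] (v : ZMod M × ZMod M) : LaurentSeries R :=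
  HahnSeries.ofPowerSeries ℤ R (gSer R ζ v) *
    qExpand R M (HahnSeries.single (-1 : ℤ) (1 : R) *
      HahnSeries.ofPowerSeries ℤ R (PowerSeries.map (Int.castRingHom R) weightFix))

end Series

variable (M : ℕ) [NeZero M]

/-- The generators over `X₀(M²)`, as series in `q`. -/
def ySer (a : (ZMod M)ˣ) : LaurentSeries ℚ :=
  yFam ℚ 1 ((a : ZMod M), 0)

/-- The function field over `ℚ` of the curve of `GT M`. -/
def FY : IntermediateField ℚ (LaurentSeries ℚ) :=
  modularFunctionFieldFull (M ^ 2) ⊔ IntermediateField.adjoin ℚ (Set.range (ySer M))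

theorem full_le_FY : modularFunctionFieldFull (M ^ 2) ≤ FY M := le_sup_left

/-- The function field over `K`. -/
abbrev FYK (K : Type*) [Field K] [Algebra ℚ K] : IntermediateField K (LaurentSeries K) :=
  laurentBaseChange K (FY M)

/-- The reduced field in characteristic prime to `M`. -/
def FYres (k : Type*) [Field k] : IntermediateField k (LaurentSeries k) :=
  modularFunctionFieldFullC k (M ^ 2) ⊔
    IntermediateField.adjoin k (Set.range fun a : (ZMod M)ˣ => yFam k 1 ((a : ZMod M), 0))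

/-- The constants act on the series. A shortcut: the general search is slow. -/
instance (priority := high) algebraSeries {K : Type*} [Field K] : Algebra K (LaurentSeries K) :=
  HahnSeries.powerSeriesAlgebra ℤ K

/-- The points over `ℚ̄` of the Jacobian. -/
abbrev JY : Type := Pic0 (AlgebraicClosure ℚ) (FYK M (AlgebraicClosure ℚ))

/-- The lattice `Hom_cl(GT M, ℤ)` of homomorphisms killing elliptic and parabolic elements. -/
abbrev Lat : Type := Grp.clHoms ℤ (GT M) ℤ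

end Fermat.Agent.WeightOneGalois
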