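import Fermat.Prelude.Def_Deformations_MatrixRepresentation
import Fermat.Prelude.Def_GaloisRep_Residual
import Fermat.Agent.MF.CuspChar
import Fermat.Agent.WeightOneGalois.Defs

/-!
# The interfaces between the parts of the Deligne–Serre proof

* `YForms`, `EisOne`, `EisRat` — Eisenstein series of level `M` (weight four and weight one).
* `FieldC`, `FieldDegree` — the function field of the curve of `GT M`.
* `TorsionInputs` — the `ℓ`-torsion of the Jacobian of `GT M` with Galois, `T_p` and diamonds,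
  for levels `M` without elliptic elements in `Γ₀(M)`.
* `WeightOneArith` — conjugates and integrality of the coefficients in weight one.
* `ModLReps` — the representation modulo `ℓ`, for every large `ℓ ≡ 11 (mod 12)`.
-/

noncomputable section

namespace Fermat.Agent.WeightOneGalois

open CongruenceSubgroup UpperHalfPlane
open scoped MatrixGroups ModularForm Manifold

local notation "Γℚ" => (AlgebraicClosure ℚ ≃ₐ[ℚ] AlgebraicClosure ℚ)
local notation "Qbar" => AlgebraicClosure ℚ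

/-- `e^(2πi/M)`. -/
def zetaC (M : ℕ) : ℂ := Complex.exp (2 * Real.pi * Complex.I / M)

/-- The action of `SL(2, ℤ)` on rows modulo `M`. -/
def rowMul {M : ℕ} (v : ZMod M × ZMod M) (γ : SL(2, ℤ)) : ZMod M × ZMod M :=
  (v.1 * (γ 0 0 : ZMod M) + v.2 * (γ 1 0 : ZMod M),
    v.1 * (γ 0 1 : ZMod M) + v.2 * (γ 1 1 : ZMod M))

/-- Primitive rows. -/
def IsPrim {M : ℕ} (v : ZMod M × ZMod M) : Prop := IsCoprime v.1 v.2

theorem isPrim_rowMul {M : ℕ} {v : ZMod M × ZMod M} (hv : IsPrim v) (γ : SL(2, ℤ)) :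
    IsPrim (rowMul v γ) := by
  obtain ⟨a, b, hab⟩ := hv
  have h := γ.2
  rw [Matrix.det_fin_two] at h
  have h2 := congrArg (Int.cast : ℤ → ZMod M) h
  push_cast at h2
  refine ⟨a * (γ 1 1 : ZMod M) - b * (γ 0 1 : ZMod M), b * (γ 0 0 : ZMod M) - a * (γ 1 0 : ZMod M),
      ?_⟩
  simp only [rowMul]
  linear_combination (a * v.1 + b * v.2) * h2 + hab

theorem isPrim_units {M : ℕ} (x : (ZMod M)ˣ) : IsPrim ((x : ZMod M), 0) :=
  ⟨((x⁻¹ : (ZMod M)ˣ) : ZMod M), 0, by simp⟩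

/-- The values of a Dirichlet character are algebraic integers. -/
theorem isIntegral_char {n : ℕ} [NeZero n] (χ : DirichletCharacter ℂ n) (a : ZMod n) :
    IsIntegral ℤ (χ a) := by
  by_cases ha : IsUnit a
  · obtain ⟨u, rfl⟩ := ha
    refine ⟨Polynomial.X ^ (Fintype.card (ZMod n)ˣ) - 1,
      Polynomial.monic_X_pow_sub_C 1 Fintype.card_ne_zero, ?_⟩
    rw [Polynomial.eval₂_sub, Polynomial.eval₂_X_pow, Polynomial.eval₂_one, ← map_pow,
      ← Units.val_pow_eq_pow_val, pow_card_eq_one, Units.val_one, map_one, sub_self]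
  · rw [MulChar.map_nonunit _ ha]
    exact isIntegral_zero

/-- The weight-four Eisenstein series of primitive rows, with their expansions. -/
def YForms : Prop :=
  ∀ M : ℕ, ∀ [NeZero M], 4 ≤ M → ∃ G : ZMod M × ZMod M → ℍ → ℂ,
    (∀ v (γ : SL(2, ℤ)), IsPrim v → G v ∣[(4 : ℤ)] γ = G (rowMul v γ)) ∧
    (∀ v, IsPrim v → MDifferentiable 𝓘(ℂ) 𝓘(ℂ) (G v) ∧ IsBoundedAtImInfty (G v)) ∧
    ∀ v, IsPrim v → ∀ τ : ℍ,
      HasSum (fun n : ℕ => PowerSeries.coeff n (gSer ℂ (zetaC M) v) *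
        Function.Periodic.qParam (M : ℝ) (τ : ℂ) ^ n) (G v τ)

/-- A weight-one series of level `ℓ` with character `χ`: integral coefficients, those of positive
index divisible by `ℓ`, and constant term `∑ a χ(a)`. -/
def EisOne : Prop :=
  ∀ ℓ : ℕ, ∀ [NeZero ℓ], ℓ.Prime → 5 ≤ ℓ → ∀ χ : DirichletCharacter ℂ ℓ, χ (-1) = -1 →
    ∃ (E : ℍ → ℂ) (e : PowerSeries (integralClosure ℤ ℂ)),
      MF.IsFormFn (Gamma1 ℓ) 1 E ∧
      (∀ γ : SL(2, ℤ), γ ∈ Gamma0 ℓ → E ∣[(1 : ℤ)] γ = χ (γ 1 1 : ZMod ℓ) • E) ∧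
      qExpansion 1 E = e.map (integralClosure ℤ ℂ).val.toRingHom ∧
      ((PowerSeries.coeff 0 e : integralClosure ℤ ℂ) : ℂ) =
        ∑ a ∈ Finset.range ℓ, χ (a : ZMod ℓ) * (a : ℂ) ∧
      ∀ n : ℕ, n ≠ 0 → (ℓ : integralClosure ℤ ℂ) ∣ PowerSeries.coeff n e

/-- A weight-one series with integral coefficients and non-zero constant term. -/
def EisRat : Prop :=
  ∀ N : ℕ, ∀ [NeZero N], 3 ≤ N → ∃ (E : ℍ → ℂ) (e : PowerSeries ℤ),
    MF.IsFormFn (Gamma1 N) 1 E ∧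
    qExpansion 1 E = e.map (Int.castRingHom ℂ) ∧ PowerSeries.coeff 0 e ≠ 0

/-- The expansion of a quotient of two forms of equal weight on `GT M`. -/
abbrev IsRatioGT (M : ℕ) (x : LaurentSeries ℂ) : Prop := MF.IsRatioOn (GT M) x

/-- The analytic description of the field over `ℂ`. -/
def FieldC : Prop :=
  ∀ M : ℕ, ∀ [NeZero M], 4 ≤ M → ∀ x : LaurentSeries ℂ, x ∈ FYK M ℂ ↔ IsRatioGT M x

/-- The degree over the `j`-line, in every characteristic prime to the level. -/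
def FieldDegree : Prop :=
  ∀ M : ℕ, ∀ [NeZero M], 4 ≤ M → ∀ (k : Type) [Field k] [IsAlgClosed k], (M : k) ≠ 0 →
    IntermediateField.relfinrank (IntermediateField.adjoin k {ModularCurve.jqModC k}) (FYres M k) =
      (GT M).index

/-- A normalised weight-one eigenform away from the level. -/
structure IsEigen {N : ℕ} [NeZero N] (ε : DirichletCharacter ℂ N)
    (f : CuspForm (Gamma1 N) 1) : Prop where
  one : ModularFormClass.qCoeff f 1 = 1
  hecke : ∀ p : ℕ, p.Prime → ¬ p ∣ N → ∀ n : ℕ,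
    ModularFormClass.qCoeff f (p * n) +
        ε (p : ZMod N) * (if p ∣ n then ModularFormClass.qCoeff f (n / p) else 0) =
      ModularFormClass.qCoeff f p * ModularFormClass.qCoeff f n
  char : ∀ γ : SL(2, ℤ), γ ∈ Gamma0 N →
    (⇑f : ℍ → ℂ) ∣[(1 : ℤ)] γ = ε (γ 1 1 : ZMod N) • (⇑f : ℍ → ℂ)

/-- Conjugates and integrality in weight one. -/
def WeightOneArith : Prop :=
  ∀ (N : ℕ) [NeZero N] (ε : DirichletCharacter ℂ N) (f : CuspForm (Gamma1 N) 1), IsEigen ε f →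
    (∀ p : ℕ, p.Prime → ¬ p ∣ N → IsIntegral ℤ (ModularFormClass.qCoeff f p)) ∧
    (∃ K : IntermediateField ℚ ℂ, FiniteDimensional ℚ K ∧
      ∀ p : ℕ, p.Prime → ¬ p ∣ N →
        ModularFormClass.qCoeff f p ∈ K ∧ ε (p : ZMod N) ∈ K) ∧
    ∀ σ : ℂ →+* ℂ, ∃ (M : ℕ) (g : ℍ → ℂ), M ≠ 0 ∧ MF.IsCuspFn (Gamma1 M) 1 g ∧
      ∀ n : ℕ, ModularFormClass.qCoeff g n = σ (ModularFormClass.qCoeff f n)

section Torsion

variable (M : ℕ) [NeZero M]

/-- `σ` represents the diamond `⟨d⟩`. -/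
def IsDiaRep (d : ℕ) (σ : SL(2, ℤ)) : Prop :=
  σ ∈ Gamma0 (M ^ 2) ∧ (σ 1 1 : ZMod M) = (d : ZMod M)

/-- The double coset representatives of `T_p`: `(1 b; 0 p)` and `σ (p 0; 0 1)`. -/
def heckeRep (p : ℕ) (σ : SL(2, ℤ)) : Option (Fin p) → Matrix (Fin 2) (Fin 2) ℤ
  | some b => !![1, (b : ℤ); 0, (p : ℤ)]
  | none => (σ : Matrix (Fin 2) (Fin 2) ℤ) * !![(p : ℤ), 0; 0, 1]

/-- `ψ` is the transfer of `φ` along `T_p`. -/
def IsHeckeImage (p : ℕ) (σ : SL(2, ℤ)) (φ ψ : Lat M) : Prop :=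
  ∀ (γ : GT M) (π : Option (Fin p) → Option (Fin p)) (c : Option (Fin p) → GT M),
    (∀ i, heckeRep p σ i * ((γ : SL(2, ℤ)) : Matrix (Fin 2) (Fin 2) ℤ) =
      ((c i : SL(2, ℤ)) : Matrix (Fin 2) (Fin 2) ℤ) * heckeRep p σ (π i)) →
    (ψ : Additive (GT M) →+ ℤ) (Additive.ofMul γ) =
      ∑ i, (φ : Additive (GT M) →+ ℤ) (Additive.ofMul (c i))

/-- `ψ` is the conjugate of `φ` by `σ`. -/
def IsDiaImage (σ : SL(2, ℤ)) (φ ψ : Lat M) : Prop :=
  ∀ γ c : GT M, σ * (γ : SL(2, ℤ)) * σ⁻¹ = (c : SL(2, ℤ)) →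
    (ψ : Additive (GT M) →+ ℤ) (Additive.ofMul γ) =
      (φ : Additive (GT M) →+ ℤ) (Additive.ofMul c)

/-- The `ℓ`-torsion of the Jacobian of `GT M`, with Galois and correspondences. -/
structure TorsionY (ℓ : ℕ) where
  /-- The map from the lattice onto the `ℓ`-torsion, with kernel `ℓ Lat M`. -/
  proj : Lat M →+ JY M
  range_eq : ∀ x : JY M, ℓ • x = 0 ↔ x ∈ proj.range
  ker_eq : ∀ v : Lat M, proj v = 0 ↔ ∃ w : Lat M, v = ℓ • w
  finite_level : ∀ v : Lat M, ∃ L : IntermediateField ℚ Qbar, FiniteDimensional ℚ L ∧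
    ∀ σ : Γℚ, (∀ a ∈ L, σ a = a) → σ • proj v = proj v
  unramified : ∀ q : ℕ, q.Prime → ¬ q ∣ M * ℓ → ∀ A : ValuationSubring Qbar, A.LiesOverPrime q →
    ∀ σ ∈ A.inertiaSubgroupIn ℚ, ∀ v : Lat M, σ • proj v = proj v
  hecke : ∀ p : ℕ, p.Prime → ¬ p ∣ M → ∀ δ : SL(2, ℤ), IsDiaRep M p δ →
    ∃ T S : Module.End ℤ (Lat M),
      (∀ v, IsHeckeImage M p δ v (T v)) ∧ (∀ v, IsDiaImage M δ v (S v)) ∧
      (∀ (σ : Γℚ) (v w : Lat M), σ • proj v = proj w →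
        σ • proj (T v) = proj (T w) ∧ σ • proj (S v) = proj (S w)) ∧
      (¬ p ∣ ℓ → ∀ A : ValuationSubring Qbar, A.LiesOverPrime p →
        ∀ σ : Γℚ, A.IsFrobeniusAt σ p → ∀ v : Lat M,
          σ • σ • proj v - σ • proj (T v) + p • proj (S v) = 0)

end Torsion

/-- `Γ₀(M)` has no elliptic element. -/
def NoEll (M : ℕ) : Prop := ∀ γ ∈ Gamma0 M, 2 ≤ |Grp.tr γ|

/-- The geometric input: `ℓ`-torsion with Galois and Hecke action at every level without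
elliptic elements. -/
def TorsionInputs : Prop :=
  ∀ (M : ℕ) [NeZero M] (ℓ : ℕ), 4 ≤ M → NoEll M → ℓ.Prime → Nonempty (TorsionY M ℓ)

/-- Representations modulo every large `ℓ ≡ 11 (mod 12)`. -/
def ModLReps : Prop :=
  ∀ (N : ℕ) [NeZero N] (ε : DirichletCharacter ℂ N) (f : CuspForm (Gamma1 N) 1), IsEigen ε f →
    ∃ B : ℕ, ∀ ℓ : ℕ, ℓ.Prime → B < ℓ → ℓ % 12 = 11 →
      ∀ (k : Type) [Field k] [IsAlgClosed k] [CharP k ℓ] (φ : integralClosure ℤ ℂ →+* k),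
        ∃ τ : Γℚ →* GL (Fin 2) k, GaloisFactorsThroughFiniteLevel τ ∧
          ∀ p : ℕ, p.Prime → ¬ p ∣ N * ℓ →
            ∀ A : ValuationSubring Qbar, A.LiesOverPrime p →
              (∀ σ ∈ A.inertiaSubgroupIn ℚ, τ σ = 1) ∧
              ∀ σ : Γℚ, A.IsFrobeniusAt σ p → ∀ a e : integralClosure ℤ ℂ,
                (a : ℂ) = ModularFormClass.qCoeff f p → (e : ℂ) = ε (p : ZMod N) →
                  ((τ σ : GL (Fin 2) k) : Matrix (Fin 2) (Fin 2) k).trace = φ a ∧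
                  ((τ σ : GL (Fin 2) k) : Matrix (Fin 2) (Fin 2) k).det = φ e

end Fermat.Agent.WeightOneGalois
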