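import Fermat.Agent.WeightOneGalois.Analytic.Char
import Fermat.Agent.WeightOneGalois.Analytic.Main
import Fermat.Agent.WeightOneGalois.Arith.Main
import Fermat.Agent.WeightOneGalois.Field.Main
import Fermat.Agent.WeightOneGalois.Forms.Eis
import Fermat.Agent.WeightOneGalois.Forms.Weight4
import Fermat.Agent.WeightOneGalois.Monodromy.Main
import Fermat.Agent.WeightOneGalois.Period.Galois

/-!
# The theorem of Deligne and Serre from the `ℓ`-torsion inputs

Combines the parts of `WeightOneGalois` into the existence of the Artin representation of a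
weight-one eigenform, given `TorsionInputs`; the latter is supplied by `Hecke/Main` (used for S48).
-/

noncomputable section

namespace Fermat.Agent.WeightOneGalois

open CongruenceSubgroup
open scoped MatrixGroups

local notation "Γℚ" => (AlgebraicClosure ℚ ≃ₐ[ℚ] AlgebraicClosure ℚ)

/-- Conjugates and integrality in weight one. -/
theorem weightOneArith : WeightOneArith := weightOneArith_of yForms eisRat

/-- The representations modulo `ℓ`, given the torsion of the Jacobians. -/
theorem modLReps (hT : TorsionInputs) : ModLReps := modLReps_of hT eisOne weightOneArith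

/-- The monodromy inputs for the curves of `GT M`. -/
theorem monoInputs : MonoInputs :=
  Curve.monoInputs_of (Field.fieldC yForms) (Field.fieldDegree yForms)

/-- Deligne–Serre, given `TorsionInputs`. -/
theorem exists_galoisRep_of_torsion (hT : TorsionInputs)
    (N : ℕ) [NeZero N] (ε : DirichletCharacter ℂ N) (f : CuspForm (Gamma1 N) 1)
    (hf₁ : ModularFormClass.qCoeff f 1 = 1)
    (hH : ∀ p : ℕ, p.Prime → ¬ p ∣ N → ∀ n : ℕ,
        ModularFormClass.qCoeff f (p * n) +
            ε (p : ZMod N) * (if p ∣ n then ModularFormClass.qCoeff f (n / p) else 0) =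
          ModularFormClass.qCoeff f p * ModularFormClass.qCoeff f n) :
    ∃ ρ : Γℚ →* GL (Fin 2) ℂ, GaloisFactorsThroughFiniteLevel ρ ∧
      (Deformation.matrixRepresentation ρ).IsIrreducible ∧
      ∀ p : ℕ, p.Prime → ¬ p ∣ N →
        ∀ A : ValuationSubring (AlgebraicClosure ℚ), A.LiesOverPrime p →
          (∀ σ ∈ A.inertiaSubgroupIn ℚ, ρ σ = 1) ∧
          ∀ σ : Γℚ, A.IsFrobeniusAt σ p →
            ((ρ σ : GL (Fin 2) ℂ) : Matrix (Fin 2) (Fin 2) ℂ).trace = ModularFormClass.qCoeff f p ∧
            ((ρ σ : GL (Fin 2) ℂ) : Matrix (Fin 2) (Fin 2) ℂ).det = ε (p : ZMod N) :=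
  deligneSerre_of weightOneArith (modLReps hT) (isEigen_of ε f hf₁ hH)

end Fermat.Agent.WeightOneGalois
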